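import Mathlib

/-!
# S52 / piece A2a (helper720): `addSubMap` really computes `x(P+Q)`, `x(P-Q)`

For points `P`, `Q` on an elliptic curve `W` over a field, the vector
`addSubMap W (sym2x P Q)` is a nonzero multiple of `sym2x (P + Q) (P - Q)`, i.e.
`(x(P) x(Q) : x(P) + x(Q) : 1) ↦ (x(P+Q) x(P-Q) : x(P+Q) + x(P-Q) : 1)` projectively, in ALL
cases (including `P = O`, `Q = O`, `P = ± Q`, 2-torsion).  This is the TODO of Mathlib's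
`Mathlib/AlgebraicGeometry/EllipticCurve/Affine/AddSubMap.lean`.

The three x-coordinate identities used are those of `Fermat/Agent/S05/XId.lean` (helper845),
repeated here under fresh names so that this file only depends on Mathlib.
-/

set_option autoImplicit false

namespace Fermat.Agent.Lib.Frob.A2.H720

open WeierstrassCurve WeierstrassCurve.Affine

section Eval

variable {R : Type*} [CommRing R] (W : WeierstrassCurve R)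

lemma eval_addSubMap_zero (x : Fin 3 → R) : MvPolynomial.eval x (W.addSubMap 0)
    = x 0 ^ 2 - W.b₄ * x 0 * x 2 - W.b₆ * x 1 * x 2 - W.b₈ * x 2 ^ 2 := by
  simp [WeierstrassCurve.addSubMap]

lemma eval_addSubMap_one (x : Fin 3 → R) : MvPolynomial.eval x (W.addSubMap 1)
    = 2 * x 1 * x 0 + W.b₂ * x 0 * x 2 + W.b₄ * x 1 * x 2 + W.b₆ * x 2 ^ 2 := by
  simp [WeierstrassCurve.addSubMap]

lemma eval_addSubMap_two (x : Fin 3 → R) : MvPolynomial.eval x (W.addSubMap 2)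
    = x 1 ^ 2 - 4 * x 0 * x 2 := by
  simp [WeierstrassCurve.addSubMap]

end Eval

variable {L : Type*} [Field L] (W : Affine L)

/-- numerator of `x(P+Q) + x(P-Q)` -/
def xSumNum (x₁ x₂ : L) : L :=
  2 * x₁ * x₂ * (x₁ + x₂) + W.b₂ * x₁ * x₂ + W.b₄ * (x₁ + x₂) + W.b₆

/-- numerator of `x(P+Q) * x(P-Q)` -/
def xProdNum (x₁ x₂ : L) : L :=
  x₁ ^ 2 * x₂ ^ 2 - W.b₄ * x₁ * x₂ - W.b₆ * (x₁ + x₂) - W.b₈

/-- denominator of the duplication formula -/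
def xDblDen (x : L) : L :=
  4 * x ^ 3 + W.b₂ * x ^ 2 + 2 * W.b₄ * x + W.b₆

/-- numerator of the duplication formula -/
def xDblNum (x : L) : L :=
  x ^ 4 - W.b₄ * x ^ 2 - 2 * W.b₆ * x - W.b₈

lemma addX_div_aux (x₁ x₂ n d : L) (hd : d ≠ 0) :
    d ^ 2 * W.addX x₁ x₂ (n / d) = n ^ 2 + W.a₁ * d * n - (W.a₂ + x₁ + x₂) * d ^ 2 := by
  simp only [addX]
  field_simp
  ring

lemma sub_negY_sq_aux {x y : L} (h : W.Equation x y) :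
    (y - W.negY x y) ^ 2 = xDblDen W x := by
  rw [Affine.equation_iff] at h
  simp only [negY, xDblDen, WeierstrassCurve.b₂, WeierstrassCurve.b₄, WeierstrassCurve.b₆]
  linear_combination 4 * h

section

variable [DecidableEq L]

lemma addX_sum_aux {x₁ x₂ y₁ y₂ : L} (h₁ : W.Equation x₁ y₁) (h₂ : W.Equation x₂ y₂)
    (hx : x₁ ≠ x₂) :
    (x₁ - x₂) ^ 2 * (W.addX x₁ x₂ (W.slope x₁ x₂ y₁ y₂) +
        W.addX x₁ x₂ (W.slope x₁ x₂ y₁ (W.negY x₂ y₂))) = xSumNum W x₁ x₂ := by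
  rw [Affine.equation_iff] at h₁ h₂
  have hd : x₁ - x₂ ≠ 0 := sub_ne_zero.mpr hx
  rw [slope_of_X_ne hx, slope_of_X_ne hx, mul_add, addX_div_aux W _ _ _ _ hd,
    addX_div_aux W _ _ _ _ hd]
  simp only [negY, xSumNum, WeierstrassCurve.b₂, WeierstrassCurve.b₄, WeierstrassCurve.b₆]
  linear_combination 2 * h₁ + 2 * h₂

lemma addX_prod_aux {x₁ x₂ y₁ y₂ : L} (h₁ : W.Equation x₁ y₁) (h₂ : W.Equation x₂ y₂)
    (hx : x₁ ≠ x₂) :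
    (x₁ - x₂) ^ 2 * (W.addX x₁ x₂ (W.slope x₁ x₂ y₁ y₂) *
        W.addX x₁ x₂ (W.slope x₁ x₂ y₁ (W.negY x₂ y₂))) = xProdNum W x₁ x₂ := by
  rw [Affine.equation_iff] at h₁ h₂
  have hd : x₁ - x₂ ≠ 0 := sub_ne_zero.mpr hx
  have hd2 : (x₁ - x₂) ^ 2 ≠ 0 := pow_ne_zero 2 hd
  apply mul_left_cancel₀ hd2
  have e3 := addX_div_aux W x₁ x₂ (y₁ - y₂) (x₁ - x₂) hd
  have e4 := addX_div_aux W x₁ x₂ (y₁ - W.negY x₂ y₂) (x₁ - x₂) hd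
  rw [slope_of_X_ne hx, slope_of_X_ne hx]
  have key : (x₁ - x₂) ^ 2 * ((x₁ - x₂) ^ 2 * (W.addX x₁ x₂ ((y₁ - y₂) / (x₁ - x₂)) *
      W.addX x₁ x₂ ((y₁ - W.negY x₂ y₂) / (x₁ - x₂)))) =
      ((x₁ - x₂) ^ 2 * W.addX x₁ x₂ ((y₁ - y₂) / (x₁ - x₂))) *
      ((x₁ - x₂) ^ 2 * W.addX x₁ x₂ ((y₁ - W.negY x₂ y₂) / (x₁ - x₂))) := by ring
  rw [key, e3, e4]
  simp only [negY, xProdNum, WeierstrassCurve.b₄, WeierstrassCurve.b₆, WeierstrassCurve.b₈]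
  linear_combination
    (y₁ ^ 2 + y₁ * x₁ * W.a₁ + y₁ * W.a₃ - 2 * y₂ ^ 2 - 2 * y₂ * x₂ * W.a₁ - 2 * y₂ * W.a₃
      - x₁ ^ 3 + 2 * x₁ ^ 2 * x₂ - x₁ ^ 2 * W.a₂ + 2 * x₁ * x₂ ^ 2 + x₁ * x₂ * W.a₁ ^ 2
      + 4 * x₁ * x₂ * W.a₂ + x₁ * W.a₁ * W.a₃ + x₁ * W.a₄ - 2 * x₂ ^ 3 - x₂ ^ 2 * W.a₁ ^ 2
      - 2 * x₂ ^ 2 * W.a₂ - x₂ * W.a₁ * W.a₃ + W.a₆) * h₁ +
    (y₂ ^ 2 + y₂ * x₂ * W.a₁ + y₂ * W.a₃ - 4 * x₁ ^ 3 + 2 * x₁ ^ 2 * x₂ - x₁ ^ 2 * W.a₁ ^ 2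
      - 4 * x₁ ^ 2 * W.a₂ + 2 * x₁ * x₂ ^ 2 + x₁ * x₂ * W.a₁ ^ 2 + 4 * x₁ * x₂ * W.a₂
      - x₁ * W.a₁ * W.a₃ - 2 * x₁ * W.a₄ - x₂ ^ 3 - x₂ ^ 2 * W.a₂ + x₂ * W.a₁ * W.a₃
      + x₂ * W.a₄ - W.a₆) * h₂

lemma addX_dbl_aux {x y : L} (h : W.Equation x y) (hy : y ≠ W.negY x y) :
    W.addX x x (W.slope x x y y) * xDblDen W x = xDblNum W x := by
  have hd : y - W.negY x y ≠ 0 := sub_ne_zero.mpr hy
  rw [slope_of_Y_ne rfl hy, ← sub_negY_sq_aux W h, mul_comm, addX_div_aux W _ _ _ _ hd]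
  rw [Affine.equation_iff] at h
  simp only [negY, xDblNum, WeierstrassCurve.b₄, WeierstrassCurve.b₆, WeierstrassCurve.b₈]
  linear_combination (-8 * x - W.a₁ ^ 2 - 4 * W.a₂) * h

variable {W}

/-- `P + Q` and `P - Q` for affine points with distinct `x`-coordinates. -/
theorem add_sub_some_aux {x₁ x₂ y₁ y₂ : L} (h₁ : W.Nonsingular x₁ y₁) (h₂ : W.Nonsingular x₂ y₂)
    (hx : x₁ ≠ x₂) :
    ∃ (x₃ y₃ x₄ y₄ : L) (h₃ : W.Nonsingular x₃ y₃) (h₄ : W.Nonsingular x₄ y₄),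
      Point.some x₁ y₁ h₁ + Point.some x₂ y₂ h₂ = Point.some x₃ y₃ h₃ ∧
      Point.some x₁ y₁ h₁ - Point.some x₂ y₂ h₂ = Point.some x₄ y₄ h₄ ∧
      (x₁ - x₂) ^ 2 * (x₃ + x₄) = xSumNum W x₁ x₂ ∧
      (x₁ - x₂) ^ 2 * (x₃ * x₄) = xProdNum W x₁ x₂ := by
  have h₂' : W.Nonsingular x₂ (W.negY x₂ y₂) := (nonsingular_neg ..).mpr h₂
  refine ⟨_, _, _, _, nonsingular_add h₁ h₂ fun hxy => hx hxy.left,
    nonsingular_add h₁ h₂' fun hxy => hx hxy.left, Point.add_of_X_ne hx, ?_,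
    addX_sum_aux W h₁.1 h₂.1 hx, addX_prod_aux W h₁.1 h₂.1 hx⟩
  rw [sub_eq_add_neg, Point.neg_some, Point.add_of_X_ne hx]

/-- Duplication for a point which is not 2-torsion. -/
theorem add_self_some_aux {x y : L} (h : W.Nonsingular x y) (hy : y ≠ W.negY x y) :
    ∃ (x' y' : L) (h' : W.Nonsingular x' y'),
      Point.some x y h + Point.some x y h = Point.some x' y' h' ∧
      x' * xDblDen W x = xDblNum W x ∧ xDblDen W x ≠ 0 := by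
  refine ⟨_, _, nonsingular_add h h fun hxy => hy hxy.right, Point.add_self_of_Y_ne hy,
    addX_dbl_aux W h.1 hy, ?_⟩
  rw [← sub_negY_sq_aux W h.1]
  exact pow_ne_zero 2 (sub_ne_zero.mpr hy)

omit [DecidableEq L] in
theorem xDblDen_eq_zero_of_Y_eq {x y : L} (h : W.Equation x y) (hy : y = W.negY x y) :
    xDblDen W x = 0 := by
  rw [← sub_negY_sq_aux W h, sub_eq_zero.mpr hy]
  ring

end

end Fermat.Agent.Lib.Frob.A2.H720
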