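import Fermat.Agent.Lib.Frob.A2.H720.AddSub

/-!
# S52 / piece A2a (helper720): `addSubMap (sym2x P Q) = c • sym2x (P + Q) (P - Q)`, `c ≠ 0`
-/

set_option autoImplicit false

namespace Fermat.Agent.Lib.Frob.A2.H720

open WeierstrassCurve WeierstrassCurve.Affine

variable {L : Type*} [Field L] {W : Affine L}

/-- The vector `addSubMap W` evaluated at a vector `x`. -/
noncomputable def asmVec (W : Affine L) (x : Fin 3 → L) : Fin 3 → L :=
  fun i => MvPolynomial.eval x (WeierstrassCurve.addSubMap W i)

lemma asmVec_eq (W : Affine L) (x : Fin 3 → L) : asmVec W x =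
    ![x 0 ^ 2 - W.b₄ * x 0 * x 2 - W.b₆ * x 1 * x 2 - W.b₈ * x 2 ^ 2,
      2 * x 1 * x 0 + W.b₂ * x 0 * x 2 + W.b₄ * x 1 * x 2 + W.b₆ * x 2 ^ 2,
      x 1 ^ 2 - 4 * x 0 * x 2] := by
  funext i
  fin_cases i
  · exact eval_addSubMap_zero W x
  · exact eval_addSubMap_one W x
  · exact eval_addSubMap_two W x

lemma asmVec_ne_zero [W.IsElliptic] {x : Fin 3 → L} (hx : x ≠ 0) : asmVec W x ≠ 0 :=
  WeierstrassCurve.addSubMap_ne_zero W hx

lemma asmVec_smul (W : Affine L) (c : L) (x : Fin 3 → L) :
    asmVec W (c • x) = c ^ 2 • asmVec W x := by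
  rw [asmVec_eq, asmVec_eq]
  funext i
  fin_cases i <;> simp <;> ring

private lemma asm_same_x (W : Affine L) (x : L) :
    asmVec W ![x * x, x + x, 1] = ![xDblNum W x, xDblDen W x, 0] := by
  rw [asmVec_eq]
  simp only [Matrix.cons_val_zero, Matrix.cons_val_one, Matrix.cons_val, xDblNum, xDblDen]
  have := W.b_relation
  congr 1
  · ring
  · congr 1
    · ring
    · congr 1
      ring

variable [DecidableEq L]

/-- **`addSubMap` computes `x(P + Q)` and `x(P - Q)`** (projectively, in all cases). -/
theorem asmVec_sym2x [W.IsElliptic] (P Q : W.Point) :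
    ∃ c : L, c ≠ 0 ∧ asmVec W (P.sym2x Q) = c • (P + Q).sym2x (P - Q) := by
  rcases P with _ | ⟨x₁, y₁, h₁⟩ <;> rcases Q with _ | ⟨x₂, y₂, h₂⟩
  · -- `O`, `O`
    refine ⟨1, one_ne_zero, ?_⟩
    rw [← Point.zero_def, add_zero, sub_zero, Point.sym2x_zero_zero, asmVec_eq, one_smul]
    simp
  · -- `O`, `Q`
    refine ⟨1, one_ne_zero, ?_⟩
    rw [← Point.zero_def, zero_add, zero_sub, Point.sym2x_neg_right, Point.sym2x_zero_some,
      Point.sym2x_some_some, asmVec_eq, one_smul]
    simp only [Matrix.cons_val_zero, Matrix.cons_val_one, Matrix.cons_val]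
    congr 1
    · ring
    · congr 1
      · ring
      · congr 1
        ring
  · -- `P`, `O`
    refine ⟨1, one_ne_zero, ?_⟩
    rw [← Point.zero_def, add_zero, sub_zero, Point.sym2x_some_zero,
      Point.sym2x_some_some, asmVec_eq, one_smul]
    simp only [Matrix.cons_val_zero, Matrix.cons_val_one, Matrix.cons_val]
    congr 1
    · ring
    · congr 1
      · ring
      · congr 1
        ring
  · -- both affine
    by_cases hx : x₁ = x₂
    · subst hx
      rw [Point.sym2x_some_some, asm_same_x W x₁]
      rcases Affine.Y_eq_of_X_eq h₁.1 h₂.1 rfl with hy | hy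
      · -- `Q = P`
        subst hy
        by_cases h2 : y₁ = W.negY x₁ y₁
        · -- 2-torsion: `P + P = 0`, `P - P = 0`
          have hadd : Point.some x₁ y₁ h₁ + Point.some x₁ y₁ h₁ = 0 :=
            Point.add_of_Y_eq rfl h2
          have hden : xDblDen W x₁ = 0 := xDblDen_eq_zero_of_Y_eq h₁.1 h2
          have hne : asmVec W ![x₁ * x₁, x₁ + x₁, 1] ≠ 0 :=
            asmVec_ne_zero (by
              intro h0
              have := congrFun h0 2
              simp at this)
          rw [asm_same_x W x₁, hden] at hne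
          refine ⟨xDblNum W x₁, ?_, ?_⟩
          · rintro h0
            apply hne
            rw [h0]
            funext i
            fin_cases i <;> rfl
          · rw [hadd, sub_self, Point.sym2x_zero_zero, hden]
            funext i
            fin_cases i <;> simp
        · obtain ⟨x', y', h', hadd, hx', hden⟩ := add_self_some_aux h₁ h2
          refine ⟨xDblDen W x₁, hden, ?_⟩
          rw [hadd, sub_self, Point.sym2x_some_zero]
          funext i
          fin_cases i
          · simp [← hx', mul_comm]
          · simp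
          · simp
      · -- `Q = -P`
        have hQ : Point.some x₁ y₂ h₂ = - Point.some x₁ y₁ h₁ := by
          rw [Point.neg_some]
          congr 1
          rw [hy, Affine.negY_negY]
        by_cases h2 : y₁ = W.negY x₁ y₁
        · have hPP : Point.some x₁ y₁ h₁ + Point.some x₁ y₁ h₁ = 0 :=
            Point.add_of_Y_eq rfl h2
          have hden : xDblDen W x₁ = 0 := xDblDen_eq_zero_of_Y_eq h₁.1 h2
          have hne : asmVec W ![x₁ * x₁, x₁ + x₁, 1] ≠ 0 :=
            asmVec_ne_zero (by
              intro h0
              have := congrFun h0 2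
              simp at this)
          rw [asm_same_x W x₁, hden] at hne
          refine ⟨xDblNum W x₁, ?_, ?_⟩
          · rintro h0
            apply hne
            rw [h0]
            funext i
            fin_cases i <;> rfl
          · rw [hQ, add_neg_cancel, sub_neg_eq_add, hPP, Point.sym2x_zero_zero, hden]
            funext i
            fin_cases i <;> simp
        · obtain ⟨x', y', h', hadd, hx', hden⟩ := add_self_some_aux h₁ h2
          refine ⟨xDblDen W x₁, hden, ?_⟩
          rw [hQ, add_neg_cancel, sub_neg_eq_add, hadd, Point.sym2x_zero_some]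
          funext i
          fin_cases i
          · simp [← hx', mul_comm]
          · simp
          · simp
    · obtain ⟨x₃, y₃, x₄, y₄, h₃, h₄, hadd, hsub, hsum, hprod⟩ := add_sub_some_aux h₁ h₂ hx
      refine ⟨(x₁ - x₂) ^ 2, pow_ne_zero 2 (sub_ne_zero.mpr hx), ?_⟩
      rw [hadd, hsub, Point.sym2x_some_some, Point.sym2x_some_some, asmVec_eq]
      funext i
      fin_cases i
      · simp only [Fin.zero_eta, Matrix.cons_val_zero, Matrix.cons_val_one, Matrix.cons_val,
          Pi.smul_apply, smul_eq_mul]
        rw [hprod, xProdNum]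
        ring
      · simp only [Fin.mk_one, Matrix.cons_val_zero, Matrix.cons_val_one, Matrix.cons_val,
          Pi.smul_apply, smul_eq_mul]
        rw [hsum, xSumNum]
        ring
      · simp only [Fin.reduceFinMk, Matrix.cons_val_zero, Matrix.cons_val_one, Matrix.cons_val,
          Pi.smul_apply, smul_eq_mul]
        ring

end Fermat.Agent.Lib.Frob.A2.H720
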