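import Fermat.Agent.Lib.Frob.A2.H720.PolyVec

/-!
# S52 / piece A2a-core (helper720): exact degree doubling for `addSubMap`

For an elliptic curve `W` over a field `F` and a primitive polynomial vector `v : Fin 3 → F[X]`,
the vector `asm W v = (addSubMap W i)(v)` is primitive and `maxDeg (asm W v) = 2 * maxDeg v`.
-/

set_option autoImplicit false

open Polynomial

namespace Fermat.Agent.Lib.Frob.A2.H720

variable {F : Type*} [Field F] (W : WeierstrassCurve F)

/-- The quadratic map `addSubMap W` applied to a polynomial vector. -/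
noncomputable def asm (v : Fin 3 → F[X]) : Fin 3 → F[X] :=
  fun i => MvPolynomial.aeval v (W.addSubMap i)

/-- The coefficient forms of `addSubMapCoeff`, applied to a polynomial vector. -/
noncomputable def asmCoeff (v : Fin 3 → F[X]) (i j : Fin 3) : F[X] :=
  MvPolynomial.aeval v (W.addSubMapCoeff (i, j))

lemma asm_eq_eval (v : Fin 3 → F[X]) (i : Fin 3) :
    asm W v i = MvPolynomial.eval v ((W.map (C : F →+* F[X])).addSubMap i) := by
  rw [asm, addSubMap_map, MvPolynomial.eval_map, MvPolynomial.aeval_def]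
  rfl

lemma asmCoeff_eq_eval (v : Fin 3 → F[X]) (i j : Fin 3) :
    asmCoeff W v i j = MvPolynomial.eval v ((W.map (C : F →+* F[X])).addSubMapCoeff (i, j)) := by
  rw [asmCoeff, addSubMapCoeff_map, MvPolynomial.eval_map, MvPolynomial.aeval_def]
  rfl

lemma natDegree_asm_le (v : Fin 3 → F[X]) (i : Fin 3) :
    (asm W v i).natDegree ≤ 2 * maxDeg v :=
  natDegree_aeval_le (W.isHomogeneous_addSubMap i) (natDegree_le_maxDeg v)

lemma natDegree_asmCoeff_le (v : Fin 3 → F[X]) (i j : Fin 3) :
    (asmCoeff W v i j).natDegree ≤ 2 * maxDeg v :=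
  natDegree_aeval_le (W.isHomogeneous_addSubMapCoeff (i, j)) (natDegree_le_maxDeg v)

variable [W.IsElliptic]

/-- The key identity of Mathlib's `addSubMapCoeff_condition`, over `F[X]`. -/
lemma asm_identity (v : Fin 3 → F[X]) (i : Fin 3) :
    ∑ j : Fin 3, C (↑W.Δ'⁻¹ : F) * asmCoeff W v i j * asm W v j = v i ^ 4 := by
  have h := (W.map (C : F →+* F[X])).addSubMapCoeff_condition v i
  simp only [map_mul, MvPolynomial.eval_C, WeierstrassCurve.coe_inv_map_Δ'] at h
  simpa only [asm_eq_eval, asmCoeff_eq_eval] using h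

/-- `addSubMap` preserves primitivity. -/
theorem isPrim_asm {v : Fin 3 → F[X]} (hv : IsPrim v) : IsPrim (asm W v) := by
  intro d hd
  by_contra hu
  have hd0 : d ≠ 0 := by
    rintro rfl
    have h0 : ∀ j, asm W v j = 0 := fun j => zero_dvd_iff.mp (hd j)
    have hv0 : ∀ i, v i = 0 := fun i => by
      have := asm_identity W v i
      simp only [h0, mul_zero, Finset.sum_const_zero] at this
      exact pow_eq_zero_iff (by norm_num) |>.mp this.symm
    exact hv.ne_zero (funext hv0)
  obtain ⟨π, hπ, hπd⟩ := WfDvdMonoid.exists_irreducible_factor hu hd0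
  have hπv : ∀ i, π ∣ v i := fun i => by
    have h4 : π ∣ v i ^ 4 := by
      rw [← asm_identity W v i]
      exact Finset.dvd_sum fun j _ => Dvd.dvd.mul_left (hπd.trans (hd j)) _
    exact hπ.prime.dvd_of_dvd_pow h4
  exact hπ.not_isUnit (hv π hπv)

/-- `addSubMap` exactly doubles the maximal degree of a polynomial vector. -/
theorem maxDeg_asm (v : Fin 3 → F[X]) : maxDeg (asm W v) = 2 * maxDeg v := by
  refine le_antisymm (maxDeg_le fun i => natDegree_asm_le W v i) ?_
  obtain ⟨i, hi⟩ := exists_natDegree_eq_maxDeg v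
  by_contra hlt
  rw [not_le] at hlt
  have hD : 0 < maxDeg v := by omega
  have hvi : v i ≠ 0 := by
    rintro h0
    rw [h0, natDegree_zero] at hi
    omega
  have h4 : (v i ^ 4).natDegree = 4 * maxDeg v := by
    rw [natDegree_pow, hi]
  have hle : (∑ j : Fin 3, C (↑W.Δ'⁻¹ : F) * asmCoeff W v i j * asm W v j).natDegree
      ≤ 2 * maxDeg v + maxDeg (asm W v) := by
    refine natDegree_sum_le_of_forall_le _ _ fun j _ => ?_
    calc (C (↑W.Δ'⁻¹ : F) * asmCoeff W v i j * asm W v j).natDegree
        ≤ (C (↑W.Δ'⁻¹ : F) * asmCoeff W v i j).natDegree + (asm W v j).natDegree :=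
          natDegree_mul_le
      _ ≤ 2 * maxDeg v + maxDeg (asm W v) := by
          gcongr
          · exact (natDegree_C_mul_le _ _).trans (natDegree_asmCoeff_le W v i j)
          · exact natDegree_le_maxDeg _ j
  rw [asm_identity, h4] at hle
  omega

end Fermat.Agent.Lib.Frob.A2.H720
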