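import Fermat.Agent.Lib.Frob.A2.H720.PolyVec

/-!
# S52 / piece A2a-core (helper720): uniqueness of primitive representatives and the Gauss lemma

* `IsPrim.exists_bezout` : a primitive vector has a Bezout combination equal to `1`.
* `exists_unit_mul_of_minors` : two primitive vectors with vanishing `2 × 2` minors differ by a
  unit; `maxDeg_eq_of_minors` : hence they have the same maximal degree.
* `gaussVec n₁ d₁ n₂ d₂ = ![n₁ n₂, n₁ d₂ + n₂ d₁, d₁ d₂]` (the coefficient vector of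
  `(d₁ Y + n₁)(d₂ Y + n₂)`); for coprime pairs it is primitive (`isPrim_gaussVec`) and
  `maxDeg = max (deg n₁) (deg d₁) + max (deg n₂) (deg d₂)` (`maxDeg_gaussVec`).
-/

set_option autoImplicit false

open Polynomial

namespace Fermat.Agent.Lib.Frob.A2.H720

variable {F : Type*} [Field F]

lemma IsPrim.exists_bezout {n : ℕ} {v : Fin n → F[X]} (hv : IsPrim v) :
    ∃ c : Fin n → F[X], ∑ i, c i * v i = 1 := by
  have hprinc : (Ideal.span (Set.range v)).IsPrincipal := inferInstance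
  obtain ⟨g, hg⟩ := hprinc
  have hgv : ∀ i, g ∣ v i := fun i => by
    have : v i ∈ Ideal.span (Set.range v) := Ideal.subset_span ⟨i, rfl⟩
    rw [hg] at this
    exact Ideal.mem_span_singleton.mp this
  have hu : IsUnit g := hv g hgv
  have h1 : (1 : F[X]) ∈ Ideal.span (Set.range v) := by
    rw [hg]
    exact Ideal.mem_span_singleton.mpr hu.dvd
  exact (Ideal.mem_span_range_iff_exists_fun).mp h1

/-- Two primitive vectors which are proportional (all `2 × 2` minors vanish) differ by a unit. -/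
theorem exists_unit_mul_of_minors {n : ℕ} {v w : Fin n → F[X]} (hv : IsPrim v) (hw : IsPrim w)
    (h : ∀ i j, v i * w j = v j * w i) : ∃ u : F[X]ˣ, ∀ i, w i = u * v i := by
  obtain ⟨c, hc⟩ := hv.exists_bezout
  obtain ⟨c', hc'⟩ := hw.exists_bezout
  set a : F[X] := ∑ i, c i * w i with ha
  set b : F[X] := ∑ i, c' i * v i with hb
  have hwa : ∀ j, w j = a * v j := fun j => by
    calc w j = (∑ i, c i * v i) * w j := by rw [hc, one_mul]
      _ = ∑ i, c i * (v i * w j) := by rw [Finset.sum_mul]; simp only [mul_assoc]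
      _ = ∑ i, c i * (v j * w i) := by simp only [h _ j]
      _ = a * v j := by rw [ha, Finset.sum_mul]; exact Finset.sum_congr rfl fun i _ => by ring
  have hvb : ∀ j, v j = b * w j := fun j => by
    calc v j = (∑ i, c' i * w i) * v j := by rw [hc', one_mul]
      _ = ∑ i, c' i * (v j * w i) := by
          rw [Finset.sum_mul]; exact Finset.sum_congr rfl fun i _ => by ring
      _ = ∑ i, c' i * (v i * w j) := by simp only [h _ j]
      _ = b * w j := by rw [hb, Finset.sum_mul]; exact Finset.sum_congr rfl fun i _ => by ring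
  obtain ⟨j, hj⟩ : ∃ j, w j ≠ 0 := by
    by_contra hcon
    rw [not_exists] at hcon
    exact hw.ne_zero (funext fun j => not_not.mp (hcon j))
  have hab : a * b = 1 := by
    have : a * b * w j = 1 * w j := by
      rw [one_mul, mul_assoc, ← hvb j, ← hwa j]
    exact mul_right_cancel₀ hj this
  exact ⟨⟨a, b, hab, by rw [mul_comm, hab]⟩, hwa⟩

lemma natDegree_unit_mul (u : F[X]ˣ) (p : F[X]) : ((u : F[X]) * p).natDegree = p.natDegree := by
  obtain ⟨c, hc, hcu⟩ := Polynomial.isUnit_iff.mp u.isUnit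
  rw [← hcu]
  exact natDegree_C_mul hc.ne_zero

theorem maxDeg_eq_of_minors {n : ℕ} {v w : Fin n → F[X]} (hv : IsPrim v) (hw : IsPrim w)
    (h : ∀ i j, v i * w j = v j * w i) : maxDeg w = maxDeg v := by
  obtain ⟨u, hu⟩ := exists_unit_mul_of_minors hv hw h
  unfold maxDeg
  congr 1
  funext i
  rw [hu i, natDegree_unit_mul]

/-! ### The Gauss lemma for products of two linear forms -/

/-- The coefficient vector of `(d₁ Y + n₁) (d₂ Y + n₂)`. -/
noncomputable def gaussVec (n₁ d₁ n₂ d₂ : F[X]) : Fin 3 → F[X] :=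
  ![n₁ * n₂, n₁ * d₂ + n₂ * d₁, d₁ * d₂]

/-- The height of a pair: the larger of the two degrees. -/
noncomputable def ht (n d : F[X]) : ℕ := max n.natDegree d.natDegree

theorem isPrim_gaussVec {n₁ d₁ n₂ d₂ : F[X]} (h₁ : IsCoprime n₁ d₁) (h₂ : IsCoprime n₂ d₂) :
    IsPrim (gaussVec n₁ d₁ n₂ d₂) := by
  intro d hd
  have h0 := hd 0
  have h1 := hd 1
  have h2 := hd 2
  simp only [gaussVec, Matrix.cons_val_zero, Matrix.cons_val_one, Matrix.cons_val] at h0 h1 h2
  obtain ⟨a, b, hab⟩ := h₂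
  -- `d ∣ n₁ ^ 2`
  have e1 : d ∣ n₁ ^ 2 * n₂ := by
    have : n₁ ^ 2 * n₂ = n₁ * (n₁ * n₂) := by ring
    rw [this]; exact Dvd.dvd.mul_left h0 _
  have e2 : d ∣ n₁ ^ 2 * d₂ := by
    have : n₁ ^ 2 * d₂ = n₁ * (n₁ * d₂ + n₂ * d₁) - d₁ * (n₁ * n₂) := by ring
    rw [this]; exact dvd_sub (Dvd.dvd.mul_left h1 _) (Dvd.dvd.mul_left h0 _)
  have hn : d ∣ n₁ ^ 2 := by
    have : n₁ ^ 2 = a * (n₁ ^ 2 * n₂) + b * (n₁ ^ 2 * d₂) := by
      linear_combination (-(n₁ ^ 2)) * hab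
    rw [this]; exact dvd_add (Dvd.dvd.mul_left e1 _) (Dvd.dvd.mul_left e2 _)
  -- `d ∣ d₁ ^ 2`
  have e3 : d ∣ d₁ ^ 2 * n₂ := by
    have : d₁ ^ 2 * n₂ = d₁ * (n₁ * d₂ + n₂ * d₁) - n₁ * (d₁ * d₂) := by ring
    rw [this]; exact dvd_sub (Dvd.dvd.mul_left h1 _) (Dvd.dvd.mul_left h2 _)
  have e4 : d ∣ d₁ ^ 2 * d₂ := by
    have : d₁ ^ 2 * d₂ = d₁ * (d₁ * d₂) := by ring
    rw [this]; exact Dvd.dvd.mul_left h2 _
  have hd' : d ∣ d₁ ^ 2 := by
    have : d₁ ^ 2 = a * (d₁ ^ 2 * n₂) + b * (d₁ ^ 2 * d₂) := by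
      linear_combination (-(d₁ ^ 2)) * hab
    rw [this]; exact dvd_add (Dvd.dvd.mul_left e3 _) (Dvd.dvd.mul_left e4 _)
  exact (h₁.pow (m := 2) (n := 2)).isUnit_of_dvd' hn hd'

lemma coeff_ht_ne_zero {n d : F[X]} (h : IsCoprime n d) :
    n.coeff (ht n d) ≠ 0 ∨ d.coeff (ht n d) ≠ 0 := by
  by_contra hcon
  rw [not_or, not_not, not_not] at hcon
  obtain ⟨hn, hd⟩ := hcon
  rcases le_total n.natDegree d.natDegree with hle | hle
  · have hht : ht n d = d.natDegree := max_eq_right hle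
    rw [hht, coeff_natDegree, leadingCoeff_eq_zero] at hd
    rw [hd, natDegree_zero] at hle
    have hn0 : n = 0 := by
      rw [hht, hd, natDegree_zero] at hn
      rw [eq_C_of_natDegree_le_zero hle, hn, C_0]
    exact not_isUnit_zero (h.isUnit_of_dvd' (hn0 ▸ dvd_refl (0 : F[X]))
      (hd ▸ dvd_refl (0 : F[X])))
  · have hht : ht n d = n.natDegree := max_eq_left hle
    rw [hht, coeff_natDegree, leadingCoeff_eq_zero] at hn
    rw [hn, natDegree_zero] at hle
    have hd0 : d = 0 := by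
      rw [hht, hn, natDegree_zero] at hd
      rw [eq_C_of_natDegree_le_zero hle, hd, C_0]
    exact not_isUnit_zero (h.isUnit_of_dvd' (hn ▸ dvd_refl (0 : F[X]))
      (hd0 ▸ dvd_refl (0 : F[X])))

theorem maxDeg_gaussVec {n₁ d₁ n₂ d₂ : F[X]} (h₁ : IsCoprime n₁ d₁) (h₂ : IsCoprime n₂ d₂) :
    maxDeg (gaussVec n₁ d₁ n₂ d₂) = ht n₁ d₁ + ht n₂ d₂ := by
  have hn₁ : n₁.natDegree ≤ ht n₁ d₁ := le_max_left _ _
  have hd₁ : d₁.natDegree ≤ ht n₁ d₁ := le_max_right _ _
  have hn₂ : n₂.natDegree ≤ ht n₂ d₂ := le_max_left _ _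
  have hd₂ : d₂.natDegree ≤ ht n₂ d₂ := le_max_right _ _
  have hle : ∀ {p q : F[X]}, p.natDegree ≤ ht n₁ d₁ → q.natDegree ≤ ht n₂ d₂ →
      (p * q).natDegree ≤ ht n₁ d₁ + ht n₂ d₂ := fun hp hq =>
    natDegree_mul_le.trans (Nat.add_le_add hp hq)
  have hle' : ∀ {p q : F[X]}, p.natDegree ≤ ht n₂ d₂ → q.natDegree ≤ ht n₁ d₁ →
      (p * q).natDegree ≤ ht n₁ d₁ + ht n₂ d₂ := fun hp hq => by
    rw [mul_comm]; exact hle hq hp
  refine le_antisymm (maxDeg_le fun i => ?_) ?_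
  · fin_cases i
    · exact hle hn₁ hn₂
    · exact (natDegree_add_le _ _).trans (max_le (hle hn₁ hd₂) (hle' hn₂ hd₁))
    · exact hle hd₁ hd₂
  · -- some entry has a nonzero coefficient in degree `ht₁ + ht₂`
    set D₁ := ht n₁ d₁
    set D₂ := ht n₂ d₂
    have c0 : (n₁ * n₂).coeff (D₁ + D₂) = n₁.coeff D₁ * n₂.coeff D₂ :=
      coeff_mul_add_eq_of_natDegree_le hn₁ hn₂
    have c2 : (d₁ * d₂).coeff (D₁ + D₂) = d₁.coeff D₁ * d₂.coeff D₂ :=
      coeff_mul_add_eq_of_natDegree_le hd₁ hd₂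
    have c1 : (n₁ * d₂ + n₂ * d₁).coeff (D₁ + D₂)
        = n₁.coeff D₁ * d₂.coeff D₂ + n₂.coeff D₂ * d₁.coeff D₁ := by
      rw [coeff_add, coeff_mul_add_eq_of_natDegree_le hn₁ hd₂, add_comm D₁ D₂,
        coeff_mul_add_eq_of_natDegree_le hn₂ hd₁]
    have hex : ∃ i, (gaussVec n₁ d₁ n₂ d₂ i).coeff (D₁ + D₂) ≠ 0 := by
      by_contra hcon
      rw [not_exists] at hcon
      have e0 := not_not.mp (hcon 0)
      have e1 := not_not.mp (hcon 1)
      have e2 := not_not.mp (hcon 2)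
      simp only [gaussVec, Matrix.cons_val_zero, Matrix.cons_val_one, Matrix.cons_val] at e0 e1 e2
      rw [c0] at e0
      rw [c1] at e1
      rw [c2] at e2
      rcases coeff_ht_ne_zero h₁ with hA | hA <;> rcases coeff_ht_ne_zero h₂ with hB | hB
      · exact (mul_ne_zero hA hB) e0
      · rcases mul_eq_zero.mp e0 with h | h
        · exact hA h
        · rw [h, zero_mul, add_zero] at e1
          exact (mul_ne_zero hA hB) e1
      · rcases mul_eq_zero.mp e0 with h | h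
        · rw [h, zero_mul, zero_add] at e1
          exact (mul_ne_zero hB hA) e1
        · exact hB h
      · exact (mul_ne_zero hA hB) e2
    obtain ⟨i, hi⟩ := hex
    exact (le_natDegree_of_ne_zero hi).trans (natDegree_le_maxDeg _ i)

end Fermat.Agent.Lib.Frob.A2.H720
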