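import Fermat.Agent.Lib.Frob.A2.H720.Doubling
import Fermat.Agent.Lib.Frob.A2.H720.Gauss
import Fermat.Agent.Lib.Frob.A2.H720.AddSubMain

/-!
# S52 / piece A2a (helper720): the EXACT parallelogram law for degree heights

Setting: `F` a field, `W` an elliptic curve over `F`, `ι : F[X] →+* L` an injective ring
homomorphism into a field `L` (e.g. `L = RatFunc F`, or the function field of `W`, with
`ι X = x`).  Points are points of the base change `WL = W.map (ι.comp C)` over `L`.

* `XRep ι P n d` : the coprime pair `(n, d)` of polynomials represents the `x`-coordinate of `P`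
  (`x(P) = ι n / ι d`, resp. `d = 0` for `P = O`).
* `ht n d = max (deg n) (deg d)` is the (degree) height; it only depends on `P` (`XRep.ht_eq`).
* `parallelogram` : if `P`, `Q`, `P + Q`, `P - Q` all have representatives then
  `h(P + Q) + h(P - Q) = 2 h(P) + 2 h(Q)` EXACTLY.
-/

set_option autoImplicit false

open Polynomial

namespace Fermat.Agent.Lib.Frob.A2.H720

open WeierstrassCurve WeierstrassCurve.Affine

variable {F : Type*} [Field F] {L : Type*} [Field L]

/-- The base change of `W` along `F → F[X] → L`. -/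
noncomputable abbrev baseCurve (W : WeierstrassCurve F) (ι : F[X] →+* L) : Affine L :=
  W.map (ι.comp (C : F →+* F[X]))

variable {W : WeierstrassCurve F} {ι : F[X] →+* L}

/-- The coprime pair `(n, d)` represents the `x`-coordinate of the point `P`. -/
def XRep (ι : F[X] →+* L) (P : (baseCurve W ι).Point) (n d : F[X]) : Prop :=
  IsCoprime n d ∧ P.xRep 0 * ι d = P.xRep 1 * ι n

lemma XRep.exists_smul (hι : Function.Injective ι) {P : (baseCurve W ι).Point} {n d : F[X]}
    (h : XRep ι P n d) : ∃ c : L, c ≠ 0 ∧ ι n = c * P.xRep 0 ∧ ι d = c * P.xRep 1 := by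
  obtain ⟨hc, hx⟩ := h
  rcases P with _ | ⟨x, y, hxy⟩
  · simp only [Point.xRep, Matrix.cons_val_zero, Matrix.cons_val_one, one_mul,
      zero_mul] at hx
    have hd : d = 0 := hι (by rw [hx, map_zero])
    have hn : n ≠ 0 := by
      rintro rfl
      exact not_isUnit_zero (hc.isUnit_of_dvd' (dvd_refl (0 : F[X])) (hd ▸ dvd_refl (0 : F[X])))
    refine ⟨ι n, (map_ne_zero_iff ι hι).mpr hn, ?_, ?_⟩
    · simp [Point.xRep]
    · simp [hd, Point.xRep]
  · simp only [Point.xRep, Matrix.cons_val_zero, Matrix.cons_val_one, one_mul] at hx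
    have hd : d ≠ 0 := by
      rintro rfl
      rw [map_zero, mul_zero] at hx
      have hn : n = 0 := hι (by rw [← hx, map_zero])
      exact not_isUnit_zero (hc.isUnit_of_dvd' (hn ▸ dvd_refl (0 : F[X])) (dvd_refl (0 : F[X])))
    refine ⟨ι d, (map_ne_zero_iff ι hι).mpr hd, ?_, ?_⟩
    · simp [Point.xRep, ← hx, mul_comm]
    · simp [Point.xRep]

/-- The image under `ι` of the Gauss vector of two representatives is a nonzero multiple of
`sym2x`. -/
lemma XRep.gaussVec_eq (hι : Function.Injective ι) {P Q : (baseCurve W ι).Point}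
    {n₁ d₁ n₂ d₂ : F[X]} (hP : XRep ι P n₁ d₁) (hQ : XRep ι Q n₂ d₂) :
    ∃ c : L, c ≠ 0 ∧ (fun i => ι (gaussVec n₁ d₁ n₂ d₂ i)) = c • P.sym2x Q := by
  obtain ⟨c₁, hc₁, hn₁, hd₁⟩ := hP.exists_smul hι
  obtain ⟨c₂, hc₂, hn₂, hd₂⟩ := hQ.exists_smul hι
  refine ⟨c₁ * c₂, mul_ne_zero hc₁ hc₂, ?_⟩
  funext i
  fin_cases i
  · simp only [gaussVec, Point.sym2x, Fin.zero_eta, Matrix.cons_val_zero, map_mul, hn₁, hn₂,
      Pi.smul_apply, smul_eq_mul]
    ring
  · simp only [gaussVec, Point.sym2x, Fin.mk_one, Matrix.cons_val_one, Matrix.cons_val_zero,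
      map_mul, map_add, hn₁, hn₂, hd₁, hd₂, Pi.smul_apply, smul_eq_mul]
    ring
  · simp only [gaussVec, Point.sym2x, Fin.reduceFinMk, Matrix.cons_val, map_mul, hd₁, hd₂,
      Pi.smul_apply, smul_eq_mul]
    ring

/-- Naturality of `asm` under `ι`. -/
lemma map_asm (W : WeierstrassCurve F) (ι : F[X] →+* L) (v : Fin 3 → F[X]) :
    (fun i => ι (asm W v i)) = asmVec (baseCurve W ι) (fun i => ι (v i)) := by
  funext i
  rw [asm, asmVec, baseCurve, addSubMap_map, MvPolynomial.eval_map, MvPolynomial.aeval_def,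
    MvPolynomial.hom_eval₂]
  rfl

variable [DecidableEq L] [W.IsElliptic]

/-- **Exact parallelogram law** for the degree height. -/
theorem parallelogram (hι : Function.Injective ι) {P Q : (baseCurve W ι).Point}
    {n₁ d₁ n₂ d₂ n₃ d₃ n₄ d₄ : F[X]} (hP : XRep ι P n₁ d₁) (hQ : XRep ι Q n₂ d₂)
    (hadd : XRep ι (P + Q) n₃ d₃) (hsub : XRep ι (P - Q) n₄ d₄) :
    ht n₃ d₃ + ht n₄ d₄ = 2 * (ht n₁ d₁ + ht n₂ d₂) := by
  set v := gaussVec n₁ d₁ n₂ d₂ with hv
  set w := gaussVec n₃ d₃ n₄ d₄ with hw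
  have hvp : IsPrim v := isPrim_gaussVec hP.1 hQ.1
  have hwp : IsPrim w := isPrim_gaussVec hadd.1 hsub.1
  have hap : IsPrim (asm W v) := isPrim_asm W hvp
  obtain ⟨c, hc, hcv⟩ := hP.gaussVec_eq hι hQ
  obtain ⟨c', hc', hcw⟩ := hadd.gaussVec_eq hι hsub
  obtain ⟨e, he, hev⟩ := asmVec_sym2x P Q
  -- `ι (asm W v) = c² e • sym2x (P+Q) (P-Q)` and `ι w = c' • sym2x (P+Q) (P-Q)`
  have h1 : (fun i => ι (asm W v i)) = (c ^ 2 * e) • (P + Q).sym2x (P - Q) := by
    rw [map_asm, hcv, asmVec_smul, hev, smul_smul]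
  have hminor : ∀ i j, asm W v i * w j = asm W v j * w i := by
    intro i j
    apply hι
    have a1 := congrFun h1 i
    have a2 := congrFun h1 j
    have b1 := congrFun hcw i
    have b2 := congrFun hcw j
    simp only [Pi.smul_apply, smul_eq_mul] at a1 a2 b1 b2
    rw [map_mul, map_mul, a1, a2, b1, b2]
    ring
  have := maxDeg_eq_of_minors hap hwp hminor
  rw [maxDeg_asm, hw, hv, maxDeg_gaussVec hadd.1 hsub.1, maxDeg_gaussVec hP.1 hQ.1] at this
  exact this

omit [DecidableEq L] [W.IsElliptic] in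
/-- The height does not depend on the representative. -/
theorem XRep.ht_eq (hι : Function.Injective ι) {P : (baseCurve W ι).Point} {n d n' d' : F[X]}
    (h : XRep ι P n d) (h' : XRep ι P n' d') : ht n d = ht n' d' := by
  obtain ⟨c, hc, hn, hd⟩ := h.exists_smul hι
  obtain ⟨c', hc', hn', hd'⟩ := h'.exists_smul hι
  have hminor : n * d' = n' * d := by
    apply hι
    rw [map_mul, map_mul, hn, hd', hn', hd]
    ring
  -- the pairs `![n, d]` and `![n', d']` are primitive and proportional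
  have hp : IsPrim ![n, d] := fun e he => h.1.isUnit_of_dvd' (he 0) (he 1)
  have hp' : IsPrim ![n', d'] := fun e he => h'.1.isUnit_of_dvd' (he 0) (he 1)
  have hm : ∀ i j, (![n, d] : Fin 2 → F[X]) i * (![n', d'] : Fin 2 → F[X]) j
      = (![n, d] : Fin 2 → F[X]) j * (![n', d'] : Fin 2 → F[X]) i := by
    intro i j
    fin_cases i <;> fin_cases j
    · rfl
    · simpa using hminor.trans (mul_comm _ _)
    · simpa using (mul_comm _ _).trans hminor.symm
    · rfl
  obtain ⟨u, hu⟩ := exists_unit_mul_of_minors hp hp' hm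
  have e0 := hu 0
  have e1 := hu 1
  simp only [Matrix.cons_val_zero, Matrix.cons_val_one] at e0 e1
  rw [ht, ht, e0, e1, natDegree_unit_mul, natDegree_unit_mul]

end Fermat.Agent.Lib.Frob.A2.H720
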