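import Mathlib

/-!
# S52 / piece A2a-core (helper720): polynomial vectors, primitivity, maximal degree

For a field `F` we consider vectors `v : Fin n → F[X]`.
* `maxDeg v` : the maximum of the `natDegree`s of the entries.
* `IsPrim v` : every common divisor of the entries is a unit.

Main results of this file:
* `natDegree_aeval_le` : a homogeneous polynomial of degree `k` with coefficients in `F`
  evaluated at `v` has degree at most `k * D` if all entries have degree at most `D`.
* `isPrim_addSubMap`, `maxDeg_addSubMap` : for an elliptic curve `W` over `F`, the quadratic map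
  `WeierstrassCurve.addSubMap` sends a primitive vector `v` to a primitive vector of
  maximal degree exactly `2 * maxDeg v`.
-/

set_option autoImplicit false

open Polynomial

namespace Fermat.Agent.Lib.Frob.A2.H720

section MapLemmas

variable {R A : Type*} [CommRing R] [CommRing A] (W : WeierstrassCurve R) (f : R →+* A)

lemma addSubMap_map (i : Fin 3) :
    (W.map f).addSubMap i = MvPolynomial.map f (W.addSubMap i) := by
  fin_cases i <;> simp [WeierstrassCurve.addSubMap, WeierstrassCurve.map_b₂,
    WeierstrassCurve.map_b₄, WeierstrassCurve.map_b₆, WeierstrassCurve.map_b₈, map_ofNat]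

lemma addSubMapCoeff_map (ij : Fin 3 × Fin 3) :
    (W.map f).addSubMapCoeff ij = MvPolynomial.map f (W.addSubMapCoeff ij) := by
  fin_cases ij <;> simp [WeierstrassCurve.addSubMapCoeff, WeierstrassCurve.map_b₂,
    WeierstrassCurve.map_b₄, WeierstrassCurve.map_b₆, WeierstrassCurve.map_b₈, map_ofNat]

end MapLemmas

variable {F : Type*} [Field F]

/-- Maximal degree of the entries of a polynomial vector. -/
noncomputable def maxDeg {n : ℕ} (v : Fin n → F[X]) : ℕ :=
  Finset.univ.sup fun i => (v i).natDegree

lemma natDegree_le_maxDeg {n : ℕ} (v : Fin n → F[X]) (i : Fin n) :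
    (v i).natDegree ≤ maxDeg v :=
  Finset.le_sup (f := fun i => (v i).natDegree) (Finset.mem_univ i)

lemma maxDeg_le {n : ℕ} {v : Fin n → F[X]} {D : ℕ} (h : ∀ i, (v i).natDegree ≤ D) :
    maxDeg v ≤ D :=
  Finset.sup_le fun i _ => h i

lemma exists_natDegree_eq_maxDeg {n : ℕ} [NeZero n] (v : Fin n → F[X]) :
    ∃ i, (v i).natDegree = maxDeg v := by
  obtain ⟨i, -, hi⟩ := Finset.exists_mem_eq_sup (Finset.univ : Finset (Fin n))
    ⟨0, Finset.mem_univ _⟩ (fun i => (v i).natDegree)
  exact ⟨i, hi.symm⟩

/-- A polynomial vector is primitive if every common divisor of its entries is a unit. -/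
def IsPrim {n : ℕ} (v : Fin n → F[X]) : Prop :=
  ∀ d : F[X], (∀ i, d ∣ v i) → IsUnit d

lemma IsPrim.ne_zero {n : ℕ} {v : Fin n → F[X]} (hv : IsPrim v) : v ≠ 0 := by
  rintro rfl
  exact Polynomial.not_isUnit_X (hv X fun i => dvd_zero _)

/-- Degree bound for the value of a homogeneous polynomial with constant coefficients. -/
lemma natDegree_aeval_le {n k D : ℕ} {p : MvPolynomial (Fin n) F} (hp : p.IsHomogeneous k)
    {v : Fin n → F[X]} (hv : ∀ i, (v i).natDegree ≤ D) :
    (MvPolynomial.aeval v p).natDegree ≤ k * D := by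
  rw [MvPolynomial.aeval_def, MvPolynomial.eval₂_eq]
  refine natDegree_sum_le_of_forall_le _ _ fun m hm => ?_
  have hmk : ∑ i ∈ m.support, m i = k := by
    have := hp (MvPolynomial.mem_support_iff.mp hm)
    rw [← this, Finsupp.weight_apply, Finsupp.sum]
    simp
  calc (algebraMap F F[X] (MvPolynomial.coeff m p) * ∏ i ∈ m.support, v i ^ m i).natDegree
      ≤ (algebraMap F F[X] (MvPolynomial.coeff m p)).natDegree
          + (∏ i ∈ m.support, v i ^ m i).natDegree := natDegree_mul_le
    _ ≤ 0 + ∑ i ∈ m.support, (v i ^ m i).natDegree := by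
        gcongr
        · rw [Polynomial.algebraMap_eq]; simp
        · exact natDegree_prod_le _ _
    _ ≤ 0 + ∑ i ∈ m.support, m i * D := by
        gcongr with i _
        exact natDegree_pow_le.trans (Nat.mul_le_mul_left _ (hv i))
    _ = k * D := by rw [zero_add, ← Finset.sum_mul, hmk]

end Fermat.Agent.Lib.Frob.A2.H720
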